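import Fermat.Agent.S57Aux.Ext

set_option autoImplicit false

universe u

open CategoryTheory Abelian IsLocalRing Module RingTheory.Sequence

namespace Fermat.Agent.S57Aux

lemma isSMulRegular_of_subsingleton_hom {R : Type u} [CommRing R] [IsNoetherianRing R]
    (N : Type u) [AddCommGroup N] [Module R N] [Module.Finite R N] (y : R)
    (h : Subsingleton (QuotSMulTop y R →ₗ[R] N)) : IsSMulRegular N y := by
  obtain ⟨r, hr, hreg⟩ := IsSMulRegular.subsingleton_linearMap_iff.mp h
  have h1 : r • (Submodule.Quotient.mk (1 : R) : QuotSMulTop y R) = 0 :=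
    Module.mem_annihilator.mp hr _
  rw [← Submodule.Quotient.mk_smul, Submodule.Quotient.mk_eq_zero,
    Submodule.mem_smul_pointwise_iff_exists] at h1
  obtain ⟨c, -, hc⟩ := h1
  simp only [smul_eq_mul, mul_one] at hc
  rw [← hc] at hreg
  exact (IsSMulRegular.mul_iff.mp hreg).1

/-- A module killed by the maximal ideal has support in `V(𝔪)`. -/
lemma support_subset_of_le_annihilator {R : Type u} [CommRing R] (I : Ideal R)
    (K : Type u) [AddCommGroup K] [Module R K] [Module.Finite R K]
    (h : I ≤ Module.annihilator R K) :
    Module.support R K ⊆ PrimeSpectrum.zeroLocus I := by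
  rw [Module.support_eq_zeroLocus]
  exact PrimeSpectrum.zeroLocus_anti_mono h

lemma ofList_le_annihilator_quotient {R : Type u} [CommRing R] (L : Type u) [AddCommGroup L]
    [Module R L] (I : Ideal R) :
    I ≤ Module.annihilator R (L ⧸ I • (⊤ : Submodule R L)) := by
  intro r hr
  rw [Module.mem_annihilator]
  intro x
  induction x using Submodule.Quotient.induction_on with | _ x
  rw [← Submodule.Quotient.mk_smul, Submodule.Quotient.mk_eq_zero]
  exact Submodule.smul_mem_smul hr Submodule.mem_top

theorem free_of_isRegular_aux (n : ℕ) : ∀ (R : Type u) [CommRing R] [IsLocalRing R]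
    [IsNoetherianRing R] (ys : List R), ys.length = n → IsWeaklyRegular R ys →
    Ideal.ofList ys = maximalIdeal R →
    ∀ (N : Type u) [AddCommGroup N] [Module R N] [Module.Finite R N] (zs : List R),
      zs.length = n → IsRegular N zs → Module.Free R N := by
  induction n with
  | zero =>
    intro R _ _ _ ys hlen _ hmax N _ _ _ _ _ _
    rw [List.length_eq_zero_iff.mp hlen, Ideal.ofList_nil] at hmax
    let _ : Field R := (IsLocalRing.isField_iff_maximalIdeal_eq.mpr hmax.symm).toField
    exact Module.Free.of_divisionRing R N
  | succ n ih =>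
    intro R _ _ _ ys hlen hreg hmax N _ _ _ zs hzlen hzreg
    match ys, hlen, hreg, hmax with
    | y :: ys, hlen, hreg, hmax =>
      simp only [List.length_cons, Nat.add_right_cancel_iff] at hlen
      have hNnt : Nontrivial N := hzreg.nontrivial
      have zmem : ∀ z ∈ zs, z ∈ maximalIdeal R := by
        intro z hz
        have hne : Ideal.ofList zs ≠ ⊤ := by
          intro h
          apply hzreg.top_ne_smul
          rw [h, Submodule.top_smul]
        exact IsLocalRing.le_maximalIdeal hne (Ideal.subset_span hz)
      have ymem : ∀ z ∈ y :: ys, z ∈ maximalIdeal R := by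
        intro z hz
        rw [← hmax]
        exact Ideal.subset_span hz
      simp only [List.mem_cons, forall_eq_or_imp] at ymem
      have smul_lt : maximalIdeal R • (⊤ : Submodule R N) < ⊤ :=
        (Submodule.top_ne_ideal_smul_of_le_jacobson_annihilator
          (IsLocalRing.maximalIdeal_le_jacobson _)).symm.lt_top
      have hExt : ∀ (K : ModuleCat.{u} R) [Module.Finite R K],
          Module.support R K ⊆ PrimeSpectrum.zeroLocus (maximalIdeal R) →
          ∀ i < n + 1, Subsingleton (Ext K (ModuleCat.of R N) i) := by
        intro K _ hK i hi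
        exact ModuleCat.subsingleton_ext_of_exists_isRegular (maximalIdeal R) K hK
          (ModuleCat.of R N) smul_lt zs zmem hzreg i (by omega)
      simp only [isWeaklyRegular_cons_iff] at hreg
      -- `y` is `N`-regular
      have hom0 : Subsingleton (Ext (ModuleCat.of R (QuotSMulTop y R)) (ModuleCat.of R N) 0) := by
        refine subsingleton_ext_of_quotient_ofList (ModuleCat.of R N) ys
          (ModuleCat.of R (QuotSMulTop y R)) 1 hreg.2 ymem.2 (fun i hi => ?_) 0 (by omega)
        refine hExt _ ?_ i (by omega)
        apply support_subset_of_le_annihilator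
        rw [← hmax, Ideal.ofList_cons, sup_le_iff]
        refine ⟨?_, ofList_le_annihilator_quotient _ _⟩
        rw [Ideal.span_singleton_le_iff_mem, Module.mem_annihilator]
        intro x
        induction x using Submodule.Quotient.induction_on with | _ x
        rw [← Submodule.Quotient.mk_smul, Module.mem_annihilator.mp (QuotSMulTop.mem_annihilator R y) x,
          Submodule.Quotient.mk_zero]
      have hom0' : Subsingleton (QuotSMulTop y R →ₗ[R] N) :=
        ((Ext.addEquiv₀ (X := ModuleCat.of R (QuotSMulTop y R)) (Y := ModuleCat.of R N)).trans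
          ModuleCat.homAddEquiv).symm.subsingleton
      have yreg : IsSMulRegular N y := isSMulRegular_of_subsingleton_hom N y hom0'
      -- depth of `N/yN`
      have hNnt' : Nontrivial (QuotSMulTop y N) := nontrivial_quotSMulTop_of_mem_maximalIdeal N ymem.1
      have smul_lt' : maximalIdeal R • (⊤ : Submodule R (QuotSMulTop y N)) < ⊤ :=
        (Submodule.top_ne_ideal_smul_of_le_jacobson_annihilator
          (IsLocalRing.maximalIdeal_le_jacobson _)).symm.lt_top
      have h_supp : Module.support R (R ⧸ maximalIdeal R) =
          PrimeSpectrum.zeroLocus (maximalIdeal R) := by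
        rw [Module.support_eq_zeroLocus, Ideal.annihilator_quotient]
      have h_ext' : ∀ i < n, Subsingleton (Ext (ModuleCat.of R (R ⧸ maximalIdeal R))
          (ModuleCat.of R (QuotSMulTop y N)) i) := by
        intro i hi
        have zero1 := AddCommGrpCat.isZero_of_iff_subsingleton.mpr
          (hExt (ModuleCat.of R (R ⧸ maximalIdeal R)) h_supp.subset i (by omega))
        have zero2 := AddCommGrpCat.isZero_of_iff_subsingleton.mpr
          (hExt (ModuleCat.of R (R ⧸ maximalIdeal R)) h_supp.subset (i + 1) (by omega))
        exact AddCommGrpCat.subsingleton_of_isZero <| ShortComplex.Exact.isZero_of_both_zeros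
          ((Ext.covariant_sequence_exact₃' (ModuleCat.of R (R ⧸ maximalIdeal R))
            (IsSMulRegular.smulShortComplex_shortExact (M := ModuleCat.of R N) yreg)) i (i + 1) rfl)
          (zero1.eq_zero_of_src _) (zero2.eq_zero_of_tgt _)
      obtain ⟨rs, rlen, rmem, rreg⟩ := ModuleCat.exists_isRegular_of_exists_subsingleton_ext
        (maximalIdeal R) n (ModuleCat.of R (QuotSMulTop y N)) smul_lt'
        (ModuleCat.of R (R ⧸ maximalIdeal R)) h_supp h_ext'
      -- pass to `R/(y)`
      have hnt : Nontrivial (R ⧸ Ideal.span {y}) := by
        rw [Ideal.Quotient.nontrivial_iff]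
        intro h
        rw [Ideal.span_singleton_eq_top] at h
        exact ymem.1 h
      have hloc : IsLocalRing (R ⧸ Ideal.span {y}) :=
        IsLocalRing.of_surjective' (Ideal.Quotient.mk _) Ideal.Quotient.mk_surjective
      have hfin : Module.Finite (R ⧸ Ideal.span {y}) (QuotSMulTop y N) :=
        Module.Finite.of_restrictScalars_finite R (R ⧸ Ideal.span {y}) (QuotSMulTop y N)
      have e : QuotSMulTop y R ≃ₗ[R] (R ⧸ Ideal.span {y}) :=
        Submodule.quotEquivOfEq _ _ (by
          rw [← Submodule.ideal_span_singleton_smul, smul_eq_mul, Ideal.mul_top])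
      have hreg' : IsWeaklyRegular (R ⧸ Ideal.span {y})
          (ys.map (Ideal.Quotient.mk (Ideal.span {y}))) :=
        (isWeaklyRegular_map_algebraMap_iff (R ⧸ Ideal.span {y}) (R ⧸ Ideal.span {y}) ys).mpr
          ((e.isWeaklyRegular_congr ys).mp hreg.2)
      have hmax' : Ideal.ofList (ys.map (Ideal.Quotient.mk (Ideal.span {y}))) =
          maximalIdeal (R ⧸ Ideal.span {y}) := by
        rw [← IsLocalRing.map_maximalIdeal_of_surjective (Ideal.Quotient.mk (Ideal.span {y}))
          Ideal.Quotient.mk_surjective, ← hmax, Ideal.ofList_cons, Ideal.map_sup,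
          Ideal.map_quotient_self, bot_sup_eq, Ideal.map_ofList]
      have rreg' : IsRegular (QuotSMulTop y N) (rs.map (Ideal.Quotient.mk (Ideal.span {y}))) :=
        ((isRegular_cons_iff' N y rs).mp ((isRegular_cons_iff N y rs).mpr ⟨yreg, rreg⟩)).2
      have hfree : Module.Free (R ⧸ Ideal.span {y}) (QuotSMulTop y N) :=
        ih (R ⧸ Ideal.span {y}) (ys.map (Ideal.Quotient.mk (Ideal.span {y}))) (by simpa using hlen)
          hreg' hmax' (QuotSMulTop y N) (rs.map (Ideal.Quotient.mk (Ideal.span {y})))
          (by simpa using rlen) rreg'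
      have : Module.FinitePresentation R N := Module.finitePresentation_of_finite R N
      refine (Module.free_quotSMulTop_iff_free R N ?_ yreg).mp hfree
      rw [IsLocalRing.jacobson_eq_maximalIdeal ⊥ bot_ne_top]
      exact ymem.1

/-- A finitely generated module over a Noetherian local ring whose maximal ideal is generated by a
regular sequence of length `n` is free as soon as it admits a regular sequence of length `n`. -/
theorem free_of_isRegular {R : Type u} [CommRing R] [IsLocalRing R]
    [IsNoetherianRing R] (ys : List R) (hreg : IsWeaklyRegular R ys)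
    (hmax : Ideal.ofList ys = maximalIdeal R)
    (N : Type u) [AddCommGroup N] [Module R N] [Module.Finite R N] (zs : List R)
    (hlen : zs.length = ys.length) (hz : IsRegular N zs) : Module.Free R N :=
  free_of_isRegular_aux ys.length R ys rfl hreg hmax N zs hlen hz

end Fermat.Agent.S57Aux
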