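import Mathlib

set_option autoImplicit false

open RingTheory.Sequence IsLocalRing MvPowerSeries

namespace Fermat.Agent.S57Aux

variable {A : Type} [CommRing A] {r : ℕ}

/-- Power series all of whose monomials involve one of the first `i` variables. -/
def varIdeal (A : Type) [CommRing A] (r i : ℕ) : Ideal (MvPowerSeries (Fin r) A) where
  carrier := {f | ∀ m : Fin r →₀ ℕ, (∀ j : Fin r, j.val < i → m j = 0) → coeff m f = 0}
  add_mem' := by
    intro f g hf hg m hm
    rw [map_add, hf m hm, hg m hm, add_zero]
  zero_mem' := by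
    intro m _
    simp
  smul_mem' := by
    intro c f hf m hm
    classical
    rw [smul_eq_mul, coeff_mul]
    refine Finset.sum_eq_zero fun p hp => ?_
    rw [Finset.HasAntidiagonal.mem_antidiagonal] at hp
    rw [hf p.2 (fun j hj => ?_), mul_zero]
    have := hm j hj
    rw [← hp, Finsupp.add_apply] at this
    omega

lemma mem_varIdeal {i : ℕ} {f : MvPowerSeries (Fin r) A} :
    f ∈ varIdeal A r i ↔ ∀ m : Fin r →₀ ℕ, (∀ j : Fin r, j.val < i → m j = 0) → coeff m f = 0 :=
  Iff.rfl

lemma varIdeal_zero : varIdeal A r 0 = ⊥ := by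
  rw [eq_bot_iff]
  intro f hf
  rw [Submodule.mem_bot]
  ext m
  simpa using hf m (fun j hj => absurd hj (Nat.not_lt_zero _))

lemma varIdeal_succ (i : Fin r) :
    varIdeal A r (i.val + 1) = varIdeal A r i.val ⊔ Ideal.span {X i} := by
  classical
  apply le_antisymm
  · intro f hf
    let h : MvPowerSeries (Fin r) A := fun m => if m i = 0 then coeff m f else 0
    have hcoeff : ∀ m, coeff m h = if m i = 0 then coeff m f else 0 := fun m => rfl
    have h1 : h ∈ varIdeal A r i.val := by
      intro m hm
      rw [hcoeff]
      split_ifs with h0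
      · apply hf m
        intro j hj
        rcases Nat.lt_succ_iff_lt_or_eq.mp hj with hj | hj
        · exact hm j hj
        · rw [Fin.ext hj]; exact h0
      · rfl
    have h2 : f - h ∈ Ideal.span {(X i : MvPowerSeries (Fin r) A)} := by
      rw [Ideal.mem_span_singleton, X_dvd_iff]
      intro m hm
      rw [map_sub, hcoeff, if_pos hm, sub_self]
    have : f = h + (f - h) := by ring
    rw [this]
    exact Submodule.add_mem_sup h1 h2
  · rw [sup_le_iff]
    constructor
    · intro f hf m hm
      exact hf m (fun j hj => hm j (by omega))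
    · rw [Ideal.span_singleton_le_iff_mem]
      intro m hm
      rw [coeff_X, if_neg]
      intro h
      have := hm i (by omega)
      rw [h] at this
      simp at this


lemma ofList_take_ofFn_X (i : ℕ) (hi : i ≤ r) :
    Ideal.ofList ((List.ofFn (fun j : Fin r => (X j : MvPowerSeries (Fin r) A))).take i) =
      varIdeal A r i := by
  induction i with
  | zero => rw [List.take_zero, Ideal.ofList_nil, varIdeal_zero]
  | succ i ih =>
    have hlt : i < (List.ofFn (fun j : Fin r => (X j : MvPowerSeries (Fin r) A))).length := by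
      rw [List.length_ofFn]; omega
    rw [← List.take_append_getElem hlt, Ideal.ofList_append, Ideal.ofList_singleton,
      ih (by omega), List.getElem_ofFn]
    exact (varIdeal_succ (A := A) (⟨i, by omega⟩ : Fin r)).symm

lemma ofList_ofFn_X :
    Ideal.ofList (List.ofFn (fun j : Fin r => (X j : MvPowerSeries (Fin r) A))) =
      varIdeal A r r := by
  have := ofList_take_ofFn_X (A := A) r (le_refl r)
  rwa [List.take_of_length_le (by rw [List.length_ofFn])] at this

lemma mem_varIdeal_top {f : MvPowerSeries (Fin r) A} :
    f ∈ varIdeal A r r ↔ constantCoeff f = 0 := by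
  constructor
  · intro h
    exact h 0 (fun _ _ => rfl)
  · intro h m hm
    have : m = 0 := by
      ext j
      exact hm j j.isLt
    rw [this]
    exact h

lemma isWeaklyRegular_ofFn_X :
    IsWeaklyRegular (MvPowerSeries (Fin r) A)
      (List.ofFn (fun j : Fin r => (X j : MvPowerSeries (Fin r) A))) := by
  constructor
  intro i hi
  have hi' : i < r := by rwa [List.length_ofFn] at hi
  rw [ofList_take_ofFn_X i hi'.le, smul_eq_mul, Ideal.mul_top, List.getElem_ofFn,
    isSMulRegular_quotient_iff_mem_of_smul_mem]
  intro f hf m hm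
  have h1 := hf (Finsupp.single ⟨i, hi'⟩ 1 + m) (by
    intro j hj
    rw [Finsupp.add_apply, hm j hj, Finsupp.single_apply, if_neg, add_zero]
    intro h
    rw [← h] at hj
    exact lt_irrefl _ hj)
  rwa [smul_eq_mul, X_def, coeff_add_monomial_mul, one_mul] at h1

lemma isWeaklyRegular_ofFn_X_append (a : A) (ha : IsSMulRegular A a) :
    IsWeaklyRegular (MvPowerSeries (Fin r) A)
      (List.ofFn (fun j : Fin r => (X j : MvPowerSeries (Fin r) A)) ++ [C a]) := by
  rw [isWeaklyRegular_append_iff]
  refine ⟨isWeaklyRegular_ofFn_X, ?_⟩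
  rw [isWeaklyRegular_singleton_iff, ofList_ofFn_X, smul_eq_mul, Ideal.mul_top,
    isSMulRegular_quotient_iff_mem_of_smul_mem]
  intro f hf
  rw [mem_varIdeal_top] at hf ⊢
  rw [smul_eq_mul, map_mul, constantCoeff_C] at hf
  apply ha
  simpa using hf

lemma ofList_ofFn_X_append [IsLocalRing A] (a : A) (ha : maximalIdeal A = Ideal.span {a}) :
    Ideal.ofList (List.ofFn (fun j : Fin r => (X j : MvPowerSeries (Fin r) A)) ++ [C a]) =
      maximalIdeal (MvPowerSeries (Fin r) A) := by
  rw [Ideal.ofList_append, Ideal.ofList_singleton, ofList_ofFn_X]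
  apply le_antisymm
  · rw [sup_le_iff]
    constructor
    · intro f hf
      rw [mem_varIdeal_top] at hf
      rw [IsLocalRing.mem_maximalIdeal, mem_nonunits_iff, isUnit_iff_constantCoeff, hf]
      exact not_isUnit_zero
    · rw [Ideal.span_singleton_le_iff_mem, IsLocalRing.mem_maximalIdeal, mem_nonunits_iff,
        isUnit_iff_constantCoeff, constantCoeff_C]
      have : a ∈ maximalIdeal A := by rw [ha]; exact Ideal.mem_span_singleton_self a
      exact this
  · intro f hf
    rw [IsLocalRing.mem_maximalIdeal, mem_nonunits_iff, isUnit_iff_constantCoeff] at hf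
    have hf' : constantCoeff f ∈ maximalIdeal A := hf
    rw [ha, Ideal.mem_span_singleton] at hf'
    obtain ⟨c, hc⟩ := hf'
    have : f = (f - C a * C c) + C a * C c := by ring
    rw [this]
    refine Submodule.add_mem_sup ?_ (Ideal.mul_mem_right _ _ (Ideal.mem_span_singleton_self _))
    rw [mem_varIdeal_top, map_sub, map_mul, constantCoeff_C, constantCoeff_C, hc, sub_self]

end Fermat.Agent.S57Aux
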