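import Mathlib

set_option autoImplicit false

universe v u

open CategoryTheory Abelian IsLocalRing Module RingTheory.Sequence

namespace Fermat.Agent.S57Aux

variable {R : Type u} [CommRing R] [Small.{v} R]

/-- `Ext` vanishing transported along an isomorphism in the first variable. -/
lemma subsingleton_ext_of_iso {X Y : ModuleCat.{v} R} (e : X ≅ Y) (N : ModuleCat.{v} R) (i : ℕ)
    (h : Subsingleton (Ext Y N i)) : Subsingleton (Ext X N i) := by
  refine ⟨fun a b => ?_⟩
  have key : ∀ a : Ext X N i, a = 0 := by
    intro a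
    have h1 : (Ext.mk₀ e.hom).comp ((Ext.mk₀ e.inv).comp a (zero_add i)) (zero_add i) = a := by
      rw [← Ext.comp_assoc_of_second_deg_zero, Ext.mk₀_comp_mk₀, e.hom_inv_id, Ext.mk₀_id_comp]
    rw [← h1, Subsingleton.elim ((Ext.mk₀ e.inv).comp a (zero_add i)) 0, Ext.comp_zero]
  rw [key a, key b]

variable [IsLocalRing R] [IsNoetherianRing R]

set_option backward.isDefEq.respectTransparency false in
/-- One step: if `x ∈ 𝔪` is `L`-regular and `Ext^{i+1}(L/xL, N) = 0` then `Ext^i(L, N) = 0`. -/
lemma subsingleton_ext_of_quotSMulTop (L N : ModuleCat.{v} R) [Module.Finite R L]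
    [Module.Finite R N] (x : R) (reg : IsSMulRegular L x) (mem : x ∈ maximalIdeal R) (i : ℕ)
    (zero : Subsingleton (Ext (ModuleCat.of R (QuotSMulTop x L)) N (i + 1))) :
    Subsingleton (Ext L N i) := by
  let S := L.smulShortComplex x
  have hS : S.ShortExact := reg.smulShortComplex_shortExact
  have exac := Ext.contravariant_sequence_exact₁' hS N i (i + 1) (add_comm 1 i)
  have epi := exac.epi_f ((@AddCommGrpCat.isZero_of_subsingleton _ zero).eq_zero_of_tgt _)
  have : S.f = x • 𝟙 L := rfl
  simp only [S, this, AddCommGrpCat.epi_iff_surjective, AddCommGrpCat.hom_ofHom] at epi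
  by_contra! ntr
  have : x ∈ (Module.annihilator R (Ext L N i)).jacobson :=
    (IsLocalRing.maximalIdeal_le_jacobson _) mem
  absurd Submodule.top_ne_pointwise_smul_of_mem_jacobson_annihilator this
  rw [eq_comm, eq_top_iff]
  intro y hy
  rcases epi y with ⟨z, hz⟩
  simp only [ModuleCat.smulShortComplex, Ext.mk₀_smul,
    Ext.bilinearComp_apply_apply, Ext.smul_comp, Ext.mk₀_id_comp] at hz
  simpa [← hz] using Submodule.smul_mem_pointwise_smul _ _ ⊤ trivial

/-- Descent of `Ext` vanishing along a regular sequence on the first variable. -/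
lemma subsingleton_ext_of_quotient_ofList (N : ModuleCat.{v} R) [Module.Finite R N]
    (ys : List R) : ∀ (L : ModuleCat.{v} R) [Module.Finite R L] (n : ℕ),
    IsWeaklyRegular L ys → (∀ y ∈ ys, y ∈ maximalIdeal R) →
    (∀ i < n + ys.length,
      Subsingleton (Ext (ModuleCat.of R (L ⧸ Ideal.ofList ys • (⊤ : Submodule R L))) N i)) →
    ∀ i < n, Subsingleton (Ext L N i) := by
  induction ys with
  | nil =>
    intro L _ n _ _ h i hi
    have e : (L ⧸ Ideal.ofList ([] : List R) • (⊤ : Submodule R L)) ≃ₗ[R] L :=
      Submodule.quotEquivOfEqBot _ (by rw [Ideal.ofList_nil, Submodule.bot_smul])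
    exact subsingleton_ext_of_iso e.toModuleIso.symm N i (h i (by simpa using hi))
  | cons y ys ih =>
    intro L _ n reg mem h i hi
    simp only [List.mem_cons, forall_eq_or_imp] at mem
    simp only [isWeaklyRegular_cons_iff] at reg
    apply subsingleton_ext_of_quotSMulTop L N y reg.1 mem.1 i
    apply ih (ModuleCat.of R (QuotSMulTop y L)) (n + 1) reg.2 mem.2 _ (i + 1) (by omega)
    intro j hj
    exact subsingleton_ext_of_iso
      (Submodule.quotOfListConsSMulTopEquivQuotSMulTopInner L y ys).toModuleIso.symm N j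
      (h j (by simp only [List.length_cons]; omega))


end Fermat.Agent.S57Aux
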